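/-
P-DS / ES1-KL, row ES1-KL-GVAL (helper61): the Gauss valuation ring of the model `K₁ · F₀`.

* `gaussValGen_of_integral` : `GaussValGenStatement F₀ x₀` for every level field `F₀` generated
  by integral series and every chart `x₀` with integer coefficients whose reductions are
  transcendental over every field;
* `gaussValGen_jq` : the case `x₀ = jq`.
-/
import Mathlib
import Fermat.Agent.H91.ES1KL.Interfaces1
import Fermat.Agent.H57.ES1.GaussNormalForm1
import Fermat.Agent.H66.ESD.GaussRing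
import Fermat.Prelude.Sol.S_ModularCurve_coeff_jqModC_neg_one

set_option autoImplicit false
set_option linter.style.haveILetI false
set_option linter.unusedSectionVars false
set_option synthInstance.maxHeartbeats 400000

noncomputable section

namespace Fermat.Agent.H61.ES1KL

open Polynomial ModularCurve
open Fermat.Agent.H66 Fermat.Agent.H57.ES1 Fermat.Agent.H91.ES1KL

/-! ### The Gauss valuation ring -/

section gaussVal

variable {K₁ : Type} [Field K₁] [Algebra ℚ K₁] (A : ValuationSubring K₁)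
  {F₀ : IntermediateField ℚ (LaurentSeries ℚ)}

/-- Either `f` or `f⁻¹` lies in the Gauss ring. -/
theorem gv_mem_or_inv_mem (hF : IntGenerated F₀) (f : laurentBaseChange K₁ F₀) :
    (f : LaurentSeries K₁) ∈ vGaussRing A ∨
      ((f⁻¹ : laurentBaseChange K₁ F₀) : LaurentSeries K₁) ∈ vGaussRing A := by
  by_cases hf0 : f = 0
  · left
    rw [hf0]
    exact (vGaussRing A).zero_mem
  have hf0' : (f : LaurentSeries K₁) ≠ 0 := fun h => hf0 (Subtype.ext h)
  obtain ⟨c, a, b, hc, -, -, hra, hrb, h⟩ := exists_gnfGen hF A f.2 hf0'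
  have ha := vIota_mem_vGaussRing A a
  have hb := vIota_mem_vGaussRing A b
  have hainv : (vIota A a)⁻¹ ∈ vGaussRing A :=
    inv_mem_vGaussRing A (x := ⟨_, ha⟩) (by rw [vGaussRed_vIota]; exact hra)
  have hbinv : (vIota A b)⁻¹ ∈ vGaussRing A :=
    inv_mem_vGaussRing A (x := ⟨_, hb⟩) (by rw [vGaussRed_vIota]; exact hrb)
  have hb0 := vIota_ne_zero_of_vRho_ne_zero A hrb
  have ha0 := vIota_ne_zero_of_vRho_ne_zero A hra
  have hcL : algebraMap K₁ (LaurentSeries K₁) c ≠ 0 := by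
    rw [Ne, map_eq_zero]
    exact hc
  have hf : (f : LaurentSeries K₁) =
      algebraMap K₁ (LaurentSeries K₁) c * vIota A a * (vIota A b)⁻¹ := by
    rw [← h]
    field_simp
  rcases A.mem_or_inv_mem c with hcA | hcA
  · left
    rw [hf]
    exact mul_mem (mul_mem (algebraMap_mem_vGaussRing A hcA) ha) hbinv
  · right
    have : ((f⁻¹ : laurentBaseChange K₁ F₀) : LaurentSeries K₁) =
        algebraMap K₁ (LaurentSeries K₁) c⁻¹ * vIota A b * (vIota A a)⁻¹ := by
      have h1 : ((f⁻¹ : laurentBaseChange K₁ F₀) : LaurentSeries K₁) =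
          (f : LaurentSeries K₁)⁻¹ := rfl
      rw [h1, hf, map_inv₀]
      field_simp
    rw [this]
    exact mul_mem (mul_mem (algebraMap_mem_vGaussRing A hcA) hb) hainv

/-- The Gauss valuation ring of the level field `K₁ · F₀`. -/
def gvVal (hF : IntGenerated F₀) : ValuationSubring (laurentBaseChange K₁ F₀) where
  toSubring := (vGaussRing A).comap (laurentBaseChange K₁ F₀).val.toRingHom
  mem_or_inv_mem' := fun f => gv_mem_or_inv_mem A hF f

theorem mem_gvVal_iff (hF : IntGenerated F₀) (f : laurentBaseChange K₁ F₀) :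
    f ∈ gvVal A hF ↔ (f : LaurentSeries K₁) ∈ vGaussRing A := Iff.rfl

end gaussVal

/-! ### The valuation subring of a discrete valuation ring -/

section dvr

variable (K₁ : Type) [Field K₁]
  (A₀ : Type) [CommRing A₀] [IsDomain A₀] [IsDiscreteValuationRing A₀]
  [Algebra A₀ K₁] [IsFractionRing A₀ K₁]

/-- The valuation subring of `K₁` attached to the discrete valuation ring `A₀`. -/
def dvrSubring : ValuationSubring K₁ := (ValuationRing.valuation A₀ K₁).valuationSubring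

theorem mem_dvrSubring_iff (x : K₁) :
    x ∈ dvrSubring K₁ A₀ ↔ ∃ a : A₀, algebraMap A₀ K₁ a = x :=
  ValuationRing.mem_integer_iff A₀ K₁ x

theorem mem_dvrSubring_iff_range (x : K₁) :
    x ∈ dvrSubring K₁ A₀ ↔ x ∈ (algebraMap A₀ K₁).range :=
  mem_dvrSubring_iff K₁ A₀ x

/-- `A₀ → A`. -/
def dvrHom : A₀ →+* ↥(dvrSubring K₁ A₀) :=
  (algebraMap A₀ K₁).codRestrict (dvrSubring K₁ A₀).toSubring
    (fun a => (mem_dvrSubring_iff K₁ A₀ _).2 ⟨a, rfl⟩)

@[simp] theorem coe_dvrHom (a : A₀) : ((dvrHom K₁ A₀ a : ↥(dvrSubring K₁ A₀)) : K₁) =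
    algebraMap A₀ K₁ a := rfl

theorem isUnit_dvrHom {c : A₀} (hc : IsUnit c) : IsUnit (dvrHom K₁ A₀ c) := hc.map _

theorem dvd_of_residue_dvrHom_eq_zero {ϖ : A₀} (hϖ : Irreducible ϖ) {c : A₀}
    (h : IsLocalRing.residue ↥(dvrSubring K₁ A₀) (dvrHom K₁ A₀ c) = 0) : ϖ ∣ c := by
  rw [IsLocalRing.residue_eq_zero_iff] at h
  have hnu : ¬ IsUnit c := fun hu =>
    (IsLocalRing.mem_maximalIdeal _).1 h (isUnit_dvrHom K₁ A₀ hu)
  have hc : c ∈ IsLocalRing.maximalIdeal A₀ := (IsLocalRing.mem_maximalIdeal _).2 hnu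
  rw [hϖ.maximalIdeal_eq, Ideal.mem_span_singleton] at hc
  exact hc

theorem C_dvd_of_map_eq_zero {ϖ : A₀} (hϖ : Irreducible ϖ) {h : A₀[X]}
    (h0 : h.map ((IsLocalRing.residue ↥(dvrSubring K₁ A₀)).comp (dvrHom K₁ A₀)) = 0) :
    C ϖ ∣ h := by
  rw [C_dvd_iff_dvd_coeff]
  intro i
  refine dvd_of_residue_dvrHom_eq_zero K₁ A₀ hϖ ?_
  have := congrArg (fun p => p.coeff i) h0
  simpa [coeff_map] using this

end dvr

/-! ### Integral charts -/

section chart

variable {K₁ : Type} [Field K₁] [Algebra ℚ K₁] (A : ValuationSubring K₁) (X₀ : LaurentSeries ℤ)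

/-- The chart over `A`. -/
def chartA : LaurentSeries ↥A := coeffMap (Int.castRingHom ↥A) X₀

theorem vIota_chartA : vIota A (chartA A X₀) = coeffEmb K₁ (coeffMap (Int.castRingHom ℚ) X₀) := by
  rw [vIota, chartA, coeffEmb, coeffMap_coeffMap, coeffMap_coeffMap]
  exact coeffMap_congr (RingHom.ext_int _ _) X₀

theorem vRho_chartA :
    vRho A (chartA A X₀) = coeffMap (Int.castRingHom (IsLocalRing.ResidueField ↥A)) X₀ := by
  rw [vRho, chartA, coeffMap_coeffMap]
  exact coeffMap_congr (RingHom.ext_int _ _) X₀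

end chart

/-! ### The main statement -/

section main

variable {K₁ : Type} [Field K₁] [Algebra ℚ K₁]
  {A₀ : Type} [CommRing A₀] [IsDomain A₀] [IsDiscreteValuationRing A₀]
  [Algebra A₀ K₁] [IsFractionRing A₀ K₁]
  {F₀ : IntermediateField ℚ (LaurentSeries ℚ)}
  [Algebra A₀ (ModelFieldGen K₁ F₀)] [IsScalarTower A₀ K₁ (ModelFieldGen K₁ F₀)]

/-- The coercion of the constants. -/
theorem coe_algebraMap_model (a : A₀) :
    ((algebraMap A₀ (ModelFieldGen K₁ F₀) a : ModelFieldGen K₁ F₀) : LaurentSeries K₁) =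
      vIota (dvrSubring K₁ A₀) (HahnSeries.C (dvrHom K₁ A₀ a)) := by
  rw [IsScalarTower.algebraMap_apply A₀ K₁ (ModelFieldGen K₁ F₀), ← algebraMap_eq_vIota]
  rfl

/-- The polynomial `h`, evaluated at the chart over `A`. -/
def evalChart (X₀ : LaurentSeries ℤ) (h : A₀[X]) : LaurentSeries ↥(dvrSubring K₁ A₀) :=
  eval₂ ((HahnSeries.C : ↥(dvrSubring K₁ A₀) →+* LaurentSeries ↥(dvrSubring K₁ A₀)).comp
    (dvrHom K₁ A₀)) (chartA (dvrSubring K₁ A₀) X₀) h

theorem coe_aeval_model (X₀ : LaurentSeries ℤ) (x : ModelFieldGen K₁ F₀)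
    (hx : (x : LaurentSeries K₁) = coeffEmb K₁ (coeffMap (Int.castRingHom ℚ) X₀)) (h : A₀[X]) :
    ((aeval x h : ModelFieldGen K₁ F₀) : LaurentSeries K₁) =
      vIota (dvrSubring K₁ A₀) (evalChart (K₁ := K₁) X₀ h) := by
  rw [aeval_def, evalChart, hom_eval₂]
  have h1 : ((aeval x h : ModelFieldGen K₁ F₀) : LaurentSeries K₁) =
      (laurentBaseChange K₁ F₀).val.toRingHom (eval₂ (algebraMap A₀ (ModelFieldGen K₁ F₀)) x h) := by
    rw [aeval_def]
    rfl
  rw [← aeval_def, h1, hom_eval₂, vIota_chartA, ← hx]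
  congr 1
  refine RingHom.ext fun a => ?_
  exact coe_algebraMap_model a

theorem vRho_evalChart (X₀ : LaurentSeries ℤ) (h : A₀[X]) :
    vRho (dvrSubring K₁ A₀) (evalChart (K₁ := K₁) X₀ h) =
      aeval (coeffMap (Int.castRingHom (IsLocalRing.ResidueField ↥(dvrSubring K₁ A₀))) X₀)
        (h.map ((IsLocalRing.residue ↥(dvrSubring K₁ A₀)).comp (dvrHom K₁ A₀))) := by
  rw [evalChart, hom_eval₂, vRho_chartA, aeval_def, eval₂_map]
  congr 1
  refine RingHom.ext fun a => ?_
  exact vRho_C (dvrSubring K₁ A₀) (dvrHom K₁ A₀ a)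

end main

/-- **ES1-KL-GVAL**, general form: the Gauss valuation ring of `K₁ · F₀` for a chart with integer
coefficients whose reductions are transcendental. -/
theorem gaussValGen_of_integral (F₀ : IntermediateField ℚ (LaurentSeries ℚ))
    (hF : IntGenerated F₀) (X₀ : LaurentSeries ℤ)
    (htr : ∀ (k : Type) [Field k], Transcendental k (coeffMap (Int.castRingHom k) X₀)) :
    GaussValGenStatement F₀ (coeffMap (Int.castRingHom ℚ) X₀) := by
  intro K₁ _ _ _ A₀ _ _ _ _ _ _ _ ϖ hϖ x hx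
  let A := dvrSubring K₁ A₀
  refine ⟨gvVal A hF, ?_, ?_, ?_, ?_, ?_⟩
  · -- (V1)
    intro a
    rw [mem_gvVal_iff, coe_algebraMap_model]
    exact vIota_mem_vGaussRing A _
  · -- (V2)
    rw [mem_gvVal_iff, hx, ← vIota_chartA A X₀]
    exact vIota_mem_vGaussRing A _
  · -- (V3)
    intro hmem
    rw [mem_gvVal_iff] at hmem
    have h1 : (((algebraMap A₀ (ModelFieldGen K₁ F₀) ϖ)⁻¹ : ModelFieldGen K₁ F₀) :
        LaurentSeries K₁) = algebraMap K₁ (LaurentSeries K₁) (algebraMap A₀ K₁ ϖ)⁻¹ := by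
      rw [map_inv₀, IsScalarTower.algebraMap_apply A₀ K₁ (ModelFieldGen K₁ F₀)]
      rfl
    rw [h1, algebraMap_mem_vGaussRing_iff] at hmem
    obtain ⟨u, hu⟩ := (mem_dvrSubring_iff K₁ A₀ _).1 hmem
    have hϖ0 : algebraMap A₀ K₁ ϖ ≠ 0 := by
      rw [Ne, map_eq_zero_iff _ (IsFractionRing.injective A₀ K₁)]
      exact hϖ.ne_zero
    have h2 : algebraMap A₀ K₁ (ϖ * u) = algebraMap A₀ K₁ 1 := by
      rw [map_mul, hu, map_one, mul_inv_cancel₀ hϖ0]
    have h3 : ϖ * u = 1 := IsFractionRing.injective A₀ K₁ h2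
    exact hϖ.not_isUnit (IsUnit.of_mul_eq_one u h3)
  · -- (V4)
    intro h hh
    rw [mem_gvVal_iff]
    have h1 : (((aeval x h)⁻¹ : ModelFieldGen K₁ F₀) : LaurentSeries K₁) =
        (vIota A (evalChart (K₁ := K₁) X₀ h))⁻¹ := by
      rw [← coe_aeval_model X₀ x hx h]
      rfl
    rw [h1]
    refine inv_mem_vGaussRing A (x := ⟨_, vIota_mem_vGaussRing A _⟩) ?_
    rw [vGaussRed_vIota, vRho_evalChart]
    intro h0
    exact hh (C_dvd_of_map_eq_zero K₁ A₀ hϖ
      ((transcendental_iff.mp (htr (IsLocalRing.ResidueField ↥A))) _ h0))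
  · -- (V5)
    intro a b ha hb hunit
    rw [mem_gvVal_iff]
    obtain ⟨a', ha'⟩ := (mem_range_vIota_iff A (a : LaurentSeries K₁)).2
      (fun m => (mem_dvrSubring_iff_range K₁ A₀ _).2 (ha m))
    obtain ⟨b', hb'⟩ := (mem_range_vIota_iff A (b : LaurentSeries K₁)).2
      (fun m => (mem_dvrSubring_iff_range K₁ A₀ _).2 (hb m))
    have hrb : vRho A b' ≠ 0 := by
      rw [vRho_ne_zero_iff]
      obtain ⟨n, c, hc, hcn⟩ := hunit
      refine ⟨n, ?_⟩
      have : b'.coeff n = dvrHom K₁ A₀ c := by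
        apply Subtype.ext
        rw [coe_dvrHom, hcn, ← hb', vIota_coeff]
      rw [this]
      exact isUnit_dvrHom K₁ A₀ hc
    have h1 : ((a / b : ModelFieldGen K₁ F₀) : LaurentSeries K₁) =
        vIota A a' * (vIota A b')⁻¹ := by
      rw [ha', hb', ← div_eq_mul_inv]
      rfl
    rw [h1]
    exact mul_mem (vIota_mem_vGaussRing A a')
      (inv_mem_vGaussRing A (x := ⟨_, vIota_mem_vGaussRing A b'⟩)
        (by rw [vGaussRed_vIota]; exact hrb))

/-- **ES1-KL-GVAL** for the chart `jq`. -/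
theorem gaussValGen_jq (F₀ : IntermediateField ℚ (LaurentSeries ℚ))
    (hF : IntGenerated F₀) (_hj : jq ∈ F₀) : GaussValGenStatement F₀ jq := by
  have h := gaussValGen_of_integral F₀ hF (jqModC ℤ) (fun k _ => by
    rw [coeffMap_jqModC]
    exact P2MW.S_ModularCurve_coeff_jqModC_neg_one.ModularCurve.CharLRows.transcendental_jqModC k)
  rwa [coeffMap_jqModC, jqModC_rat] at h

/-- **ES1-KL-GVAL** for `X₁(M)` and the chart `jq`. -/
theorem gaussValGen_F1 (M : ℕ) [NeZero M] :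
    GaussValGenStatement (Fermat.Agent.H29.ES1.F1 M) jq :=
  gaussValGen_jq _ (intGenerated_F1 M) (Fermat.Agent.H29.ES1.jq_mem_F1 M)

end Fermat.Agent.H61.ES1KL

end
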