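/-
P-DS / ES1-KL, row ES1-KL-GVAL (helper61), part 2: the Gauss valuation ring of the model
`K₁ · F₀` for the charts `t₂`, `t₃` (needed at `ℓ = 3, 2`).
-/
import Mathlib
import Fermat.Agent.H61.ES1KL.GaussVal
import Fermat.Agent.H58.KL.ModelTrT
import Fermat.Agent.H17.ESD.T2Model
import Fermat.Agent.H17.ESD.PsiThree

set_option autoImplicit false
set_option linter.style.haveILetI false
set_option linter.unusedSectionVars false
set_option synthInstance.maxHeartbeats 400000

noncomputable section

namespace Fermat.Agent.H61.ES1KL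

open Polynomial ModularCurve
open Fermat.Agent.H66 Fermat.Agent.H57.ES1 Fermat.Agent.H91.ES1KL

/-- `t₂` is transcendental over every field. -/
theorem transcendental_t2S (k : Type*) [Field k] :
    Transcendental k (Fermat.Agent.H17.ESD.t2S k) := by
  apply Fermat.Agent.H58.kltr_transcendental_of_order_ne_zero
  rw [Fermat.Agent.H17.ESD.t2S_order]
  norm_num

/-- `t₃` is transcendental over every field. -/
theorem transcendental_t3 (k : Type*) [Field k] :
    Transcendental k (Fermat.Agent.H1.ESD.t3 k) := by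
  apply Fermat.Agent.H58.kltr_transcendental_of_order_ne_zero
  rw [Fermat.Agent.H1.ESD.t3_eq_single_mul]
  apply Fermat.Agent.H58.kltr_order_single_mul_ne_zero
  rw [← PowerSeries.coeff_zero_eq_constantCoeff, PowerSeries.coeff_map,
    PowerSeries.coeff_zero_eq_constantCoeff, Fermat.Agent.H1.ESD.constantCoeff_t3Num]
  simp

/-- **ES1-KL-GVAL** for the chart `t₂`. -/
theorem gaussValGen_t2 (F₀ : IntermediateField ℚ (LaurentSeries ℚ))
    (hF : IntGenerated F₀) : GaussValGenStatement F₀ (Fermat.Agent.H17.ESD.t2S ℚ) := by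
  have h := gaussValGen_of_integral F₀ hF (Fermat.Agent.H17.ESD.t2S ℤ) (fun k _ => by
    rw [Fermat.Agent.H17.ESD.coeffMap_t2S]
    exact transcendental_t2S k)
  rwa [Fermat.Agent.H17.ESD.coeffMap_t2S] at h

/-- **ES1-KL-GVAL** for the chart `t₃`. -/
theorem gaussValGen_t3 (F₀ : IntermediateField ℚ (LaurentSeries ℚ))
    (hF : IntGenerated F₀) : GaussValGenStatement F₀ (Fermat.Agent.H1.ESD.t3 ℚ) := by
  have h := gaussValGen_of_integral F₀ hF (Fermat.Agent.H1.ESD.t3 ℤ) (fun k _ => by
    rw [Fermat.Agent.H1.ESD.coeffMap_t3]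
    exact transcendental_t3 k)
  rwa [Fermat.Agent.H1.ESD.coeffMap_t3] at h

end Fermat.Agent.H61.ES1KL

end
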